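import Mathlib
import Fermat.Agent.S41.Spec.PD

/-!
# S41, block PD — assembly, part 1 (helper221): the Manin pairing on a general `Γ`

From the leaves of `Spec/PD.lean` (taken as hypotheses):
* `maninPairingEq`       : `Spec.ManinPairingEqStatement`        (A1) from D2, D2'', D4, LA-2;
* `maninPairingPD`       : `Spec.ManinPairingPDStatement`        (A2) from A1, D1, D2', D2'', D3, D3', D4, LA-1, LA-2, LA-3;
* `maninPairingResCores` : `Spec.ManinPairingResCoresStatement`  (A3) from A1, D1, D4, TR-1, TR-2, TR-3.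
-/

set_option autoImplicit false

namespace Fermat.Agent.S41.H221

open CongruenceSubgroup Matrix.SpecialLinearGroup ModularCurve.Period ModularGroup
open Fermat.Agent.S41.Spec
open scoped MatrixGroups

universe u

section Basic

variable {Γ : Subgroup SL(2, ℤ)}

theorem S_smul_S_smul (hneg : (-1 : SL(2, ℤ)) ∈ Γ) (x : SL(2, ℤ) ⧸ Γ) : S • S • x = x := by
  induction x using QuotientGroup.induction_on with
  | H g =>
    rw [smul_smul, MulAction.Quotient.smul_mk, smul_eq_mul, QuotientGroup.eq]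
    have h1 : (S * S : SL(2, ℤ)) = -1 := by
      apply Subtype.ext
      rw [Matrix.SpecialLinearGroup.coe_mul, Matrix.SpecialLinearGroup.coe_neg,
        Matrix.SpecialLinearGroup.coe_one, S_mul_S_eq]
    have h2 : ((S * S : SL(2, ℤ)) * g)⁻¹ * g = -1 := by
      rw [h1]
      have h3 : ((-1 : SL(2, ℤ)) * g) = g * (-1) := by simp
      rw [h3, _root_.mul_inv_rev, mul_assoc, inv_mul_cancel, mul_one]
      rw [inv_eq_iff_eq_inv, eq_inv_iff_mul_eq_one]; simp
    rw [h2]; exact hneg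

theorem S_smul_T_smul (x : SL(2, ℤ) ⧸ Γ) : S • T • x = (S * T) • x := (mul_smul S T x).symm

theorem S_smul_ST_smul (hneg : (-1 : SL(2, ℤ)) ∈ Γ) (x : SL(2, ℤ) ⧸ Γ) :
    S • (S * T) • x = T • x := by
  rw [mul_smul, S_smul_S_smul hneg]

variable {R : Type*} [CommRing R]

theorem maninForm_add_left [Finite (SL(2, ℤ) ⧸ Γ)] (m₁ m₂ e' : SL(2, ℤ) ⧸ Γ → R) :
    maninForm Γ (m₁ + m₂) e' = maninForm Γ m₁ e' + maninForm Γ m₂ e' := by
  have : Fintype (SL(2, ℤ) ⧸ Γ) := Fintype.ofFinite _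
  rw [maninForm_eq_sum, maninForm_eq_sum, maninForm_eq_sum, ← Finset.sum_add_distrib]
  refine Finset.sum_congr rfl fun x _ => ?_
  simp only [Pi.add_apply]; ring

theorem maninForm_sub_left [Finite (SL(2, ℤ) ⧸ Γ)] (m₁ m₂ e' : SL(2, ℤ) ⧸ Γ → R) :
    maninForm Γ (m₁ - m₂) e' = maninForm Γ m₁ e' - maninForm Γ m₂ e' := by
  have : Fintype (SL(2, ℤ) ⧸ Γ) := Fintype.ofFinite _
  rw [maninForm_eq_sum, maninForm_eq_sum, maninForm_eq_sum, ← Finset.sum_sub_distrib]
  refine Finset.sum_congr rfl fun x _ => ?_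
  simp only [Pi.sub_apply]; ring

theorem maninForm_mul_left [Finite (SL(2, ℤ) ⧸ Γ)] (c : R) (m e' : SL(2, ℤ) ⧸ Γ → R) :
    maninForm Γ (fun x => c * m x) e' = c * maninForm Γ m e' := by
  have : Fintype (SL(2, ℤ) ⧸ Γ) := Fintype.ofFinite _
  rw [maninForm_eq_sum, maninForm_eq_sum, Finset.mul_sum]
  refine Finset.sum_congr rfl fun x _ => ?_
  ring

/-- `M^S + M^{ST}` is orthogonal to `e' - e'|S` for parabolic data `(m', e')`. -/
theorem maninForm_invariantSum [Finite (SL(2, ℤ) ⧸ Γ)] (hneg : (-1 : SL(2, ℤ)) ∈ Γ)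
    (n m' e' : SL(2, ℤ) ⧸ Γ → R) (hn : IsInvariantSum Γ n) (hp : IsParData Γ m' e') :
    maninForm Γ n e' = 0 := by
  have : Fintype (SL(2, ℤ) ⧸ Γ) := Fintype.ofFinite _
  obtain ⟨n₁, n₂, h1, h2, rfl⟩ := hn
  rw [maninForm_add_left]
  have e1 : maninForm Γ n₁ e' = 0 := by
    rw [maninForm_eq_sum]
    have : ∑ x : SL(2, ℤ) ⧸ Γ, n₁ x * e' (S • x) = ∑ x : SL(2, ℤ) ⧸ Γ, n₁ x * e' x := by
      rw [← Equiv.sum_comp (MulAction.toPerm (S : SL(2, ℤ))) (fun x => n₁ x * e' x)]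
      refine Finset.sum_congr rfl fun x _ => ?_
      simp only [MulAction.toPerm_apply]
      rw [h1]
    simp only [mul_sub, Finset.sum_sub_distrib, this, sub_self]
  have e2 : maninForm Γ n₂ e' = 0 := by
    rw [maninForm_eq_sum]
    -- `e' x - e' (S x) = k x - k (U x)` with `k x = m' x - e' (S x)`
    have hk : ∀ x : SL(2, ℤ) ⧸ Γ, e' x - e' (S • x) =
        (m' x - e' (S • x)) - (m' ((S * T) • x) - e' (S • (S * T) • x)) := by
      intro x
      have := hp x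
      rw [S_smul_ST_smul hneg]
      linear_combination -this
    have : ∑ x : SL(2, ℤ) ⧸ Γ, n₂ x * (m' ((S * T) • x) - e' (S • (S * T) • x)) =
        ∑ x : SL(2, ℤ) ⧸ Γ, n₂ x * (m' x - e' (S • x)) := by
      rw [← Equiv.sum_comp (MulAction.toPerm (S * T : SL(2, ℤ)))
        (fun x => n₂ x * (m' x - e' (S • x)))]
      refine Finset.sum_congr rfl fun x _ => ?_
      simp only [MulAction.toPerm_apply]
      rw [h2]
    calc ∑ x : SL(2, ℤ) ⧸ Γ, n₂ x * (e' x - e' (S • x))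
        = ∑ x : SL(2, ℤ) ⧸ Γ, (n₂ x * (m' x - e' (S • x)) -
            n₂ x * (m' ((S * T) • x) - e' (S • (S * T) • x))) := by
          refine Finset.sum_congr rfl fun x _ => ?_
          rw [hk x]; ring
      _ = 0 := by rw [Finset.sum_sub_distrib, this, sub_self]
  rw [e1, e2, add_zero]

/-- LA-2 on `X = SL(2,ℤ) ⧸ Γ`. -/
theorem maninForm_skew (hskew : ManinSkewStatement.{u}) [Finite (SL(2, ℤ) ⧸ Γ)]
    (hneg : (-1 : SL(2, ℤ)) ∈ Γ) {R : Type u} [CommRing R]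
    (m e m' e' : SL(2, ℤ) ⧸ Γ → R) (hp : IsParData Γ m e) (hp' : IsParData Γ m' e') :
    maninForm Γ m' e = - maninForm Γ m e' := by
  have : Fintype (SL(2, ℤ) ⧸ Γ) := Fintype.ofFinite _
  rw [maninForm_eq_sum, maninForm_eq_sum]
  exact hskew (SL(2, ℤ) ⧸ Γ) (MulAction.toPerm (S : SL(2, ℤ)))
    (MulAction.toPerm (S * T : SL(2, ℤ))) (MulAction.toPerm (T : SL(2, ℤ)))
    (fun x => S_smul_S_smul hneg x) (fun x => S_smul_T_smul x) R m e m' e' hp hp'

end Basic

/-! ## A1 -/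

theorem maninPairingEq (hD2 : ManinRepZeroStatement.{u}) (hLin : ManinRepLinearStatement.{u})
    (hD4 : ManinRepParabolicStatement.{u}) (hskew : ManinSkewStatement.{u}) :
    ManinPairingEqStatement.{u} := by
  intro Γ _ hneg R _ φ ψ m m' e' hφ hm hm' hp'
  have hex : ∃ m m' e' : SL(2, ℤ) ⧸ Γ → R,
      IsManinRep Γ φ m ∧ IsManinRep Γ ψ m' ∧ IsParData Γ m' e' := ⟨m, m', e', hm, hm', hp'⟩
  rw [maninPairing, dif_pos hex]
  obtain ⟨hm₀, hm'₀, hp'₀⟩ := hex.choose_spec.choose_spec.choose_spec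
  set m₀ := hex.choose
  set m'₀ := hex.choose_spec.choose
  set e'₀ := hex.choose_spec.choose_spec.choose
  obtain ⟨e, hp⟩ := (hD4 Γ hneg R φ m hm).1 hφ
  -- differences are invariant sums
  have hd : IsInvariantSum Γ (m₀ - m) := by
    have h1 := (hLin Γ R R (AddMonoidHom.id R) φ φ m₀ m hm₀ hm).2.1
    rw [sub_self] at h1
    exact hD2 Γ hneg R _ h1
  have hd' : IsInvariantSum Γ (m'₀ - m') := by
    have h1 := (hLin Γ R R (AddMonoidHom.id R) ψ ψ m'₀ m' hm'₀ hm').2.1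
    rw [sub_self] at h1
    exact hD2 Γ hneg R _ h1
  have s1 : maninForm Γ m₀ e'₀ = maninForm Γ m e'₀ := by
    have := maninForm_invariantSum hneg (m₀ - m) m'₀ e'₀ hd hp'₀
    rw [maninForm_sub_left] at this
    exact sub_eq_zero.mp this
  have s2 : maninForm Γ m'₀ e = maninForm Γ m' e := by
    have := maninForm_invariantSum hneg (m'₀ - m') m e hd' hp
    rw [maninForm_sub_left] at this
    exact sub_eq_zero.mp this
  have s3 := maninForm_skew hskew hneg m e m'₀ e'₀ hp hp'₀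
  have s4 := maninForm_skew hskew hneg m e m' e' hp hp'
  rw [s1]
  have : maninForm Γ m e'₀ = - maninForm Γ m'₀ e := by rw [s3, neg_neg]
  rw [this, s2, s4, neg_neg]

/-! ## A2 -/

theorem isManinRep_smul (hLin : ManinRepLinearStatement.{u}) {Γ : Subgroup SL(2, ℤ)}
    {F : Type u} [Field F] (c : F) (φ : Additive Γ →+ F) (m : SL(2, ℤ) ⧸ Γ → F)
    (hm : IsManinRep Γ φ m) : IsManinRep Γ (c • φ) (fun x => c * m x) := by
  have h := (hLin Γ F F (AddMonoidHom.mulLeft c) φ φ m m hm hm).2.2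
  have e1 : (AddMonoidHom.mulLeft c).comp φ = c • φ := by
    ext γ
    simp
  rw [e1] at h
  exact h

theorem maninPairingPD (hA1 : ManinPairingEqStatement.{u}) (hD1 : ManinRepExistsStatement.{u})
    (hD2' : ManinRepInvariantStatement.{u}) (hLin : ManinRepLinearStatement.{u})
    (hD3 : ManinRepRealizeStatement.{u}) (hD3' : ManinRepTorsionStatement.{u})
    (hD4 : ManinRepParabolicStatement.{u}) (hperp : ManinPerpStatement.{u})
    (hskew : ManinSkewStatement.{u}) (hpar : ManinParDataOfStatement.{u}) :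
    ManinPairingPDStatement.{u} := by
  intro Γ _ hneg F _
  have : Fintype (SL(2, ℤ) ⧸ Γ) := Fintype.ofFinite _
  -- representatives of cuspidal classes
  have hrep : ∀ x : Additive Γ →+ F, IsCuspidalOn Γ x →
      ∃ m e : SL(2, ℤ) ⧸ Γ → F, IsManinRep Γ x m ∧ IsParData Γ m e := by
    intro x hx
    obtain ⟨m, hm⟩ := hD1 Γ hneg F x hx.2
    obtain ⟨e, he⟩ := (hD4 Γ hneg F x m hm).1 hx.1
    exact ⟨m, e, hm, he⟩
  refine ⟨?_, ?_, ?_, ?_⟩
  · intro x x' y hx hx' hy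
    obtain ⟨m, e, hm, he⟩ := hrep x hx
    obtain ⟨m', e', hm', he'⟩ := hrep x' hx'
    obtain ⟨n, f, hn, hf⟩ := hrep y hy
    have hadd := (hLin Γ F F (AddMonoidHom.id F) x x' m m' hm hm').1
    have hparadd : IsParabolicHom Γ (x + x') := by
      intro γ hγ
      show x (Additive.ofMul γ) + x' (Additive.ofMul γ) = 0
      rw [hx.1 γ hγ, hx'.1 γ hγ, add_zero]
    rw [hA1 Γ hneg F (x + x') y (m + m') n f hparadd hadd hn hf,
      hA1 Γ hneg F x y m n f hx.1 hm hn hf, hA1 Γ hneg F x' y m' n f hx'.1 hm' hn hf,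
      maninForm_add_left]
  · intro c x y hx hy
    obtain ⟨m, e, hm, he⟩ := hrep x hx
    obtain ⟨n, f, hn, hf⟩ := hrep y hy
    have hsm := isManinRep_smul hLin c x m hm
    have hparsm : IsParabolicHom Γ (c • x) := by
      intro γ hγ
      show c • x (Additive.ofMul γ) = 0
      rw [hx.1 γ hγ, smul_zero]
    rw [hA1 Γ hneg F (c • x) y _ n f hparsm hsm hn hf, hA1 Γ hneg F x y m n f hx.1 hm hn hf,
      maninForm_mul_left]
  · intro x y hx hy
    obtain ⟨m, e, hm, he⟩ := hrep x hx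
    obtain ⟨n, f, hn, hf⟩ := hrep y hy
    rw [hA1 Γ hneg F y x n m e hy.1 hn hm he, hA1 Γ hneg F x y m n f hx.1 hm hn hf]
    exact maninForm_skew hskew hneg m e n f he hf
  · intro x hx hxy
    obtain ⟨m, e, hm, he⟩ := hrep x hx
    apply hD2' Γ hneg F x m hm
    apply hperp (SL(2, ℤ) ⧸ Γ) (MulAction.toPerm (S : SL(2, ℤ)))
      (MulAction.toPerm (S * T : SL(2, ℤ))) F m
    intro s a b hsa hsb
    obtain ⟨m', e', hp', hs'⟩ := hpar (SL(2, ℤ) ⧸ Γ) (MulAction.toPerm (S : SL(2, ℤ)))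
      (MulAction.toPerm (S * T : SL(2, ℤ))) (MulAction.toPerm (T : SL(2, ℤ)))
      (fun x => S_smul_S_smul hneg x) (fun x => S_smul_T_smul x) F s a b hsa hsb
    obtain ⟨ψ, hψ⟩ := hD3 Γ hneg F m'
    have hψc : IsCuspidalOn Γ ψ :=
      ⟨(hD4 Γ hneg F ψ m' hψ).2 ⟨e', hp'⟩, hD3' Γ hneg F ψ m' hψ⟩
    have h0 := hxy ψ hψc
    rw [hA1 Γ hneg F x ψ m m' e' hx.1 hm hψ hp', maninForm_eq_sum] at h0
    have : ∑ x : SL(2, ℤ) ⧸ Γ, m x * s x = - ∑ x : SL(2, ℤ) ⧸ Γ, m x * (e' x - e' (S • x)) := by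
      rw [← Finset.sum_neg_distrib]
      refine Finset.sum_congr rfl fun x _ => ?_
      have := hs' x
      simp only [MulAction.toPerm_apply] at this
      rw [← this]; ring
    rw [this, h0, neg_zero]

/-! ## A3 -/

theorem isCuspidalOn_res {Γ' Γ : Subgroup SL(2, ℤ)} (hle : Γ' ≤ Γ) {A : Type*} [AddCommGroup A]
    (x : Additive Γ →+ A) (hx : IsCuspidalOn Γ x) :
    IsCuspidalOn Γ' (x.comp (MonoidHom.toAdditive (Subgroup.inclusion hle))) := by
  refine ⟨fun γ hγ => ?_, fun γ hγ => ?_⟩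
  · exact hx.1 (Subgroup.inclusion hle γ) hγ
  · exact hx.2 (Subgroup.inclusion hle γ) ((Subgroup.inclusion hle).isOfFinOrder hγ)

theorem maninPairingResCores (hA1 : ManinPairingEqStatement.{u})
    (hD1 : ManinRepExistsStatement.{u}) (hD4 : ManinRepParabolicStatement.{u})
    (hRes : ManinRepResStatement.{u}) (hCores : ManinRepCoresStatement.{u})
    (hAdj : ManinFormAdjointStatement.{u}) :
    ManinPairingResCoresStatement.{u} := by
  intro Γ' Γ _ _ hle hneg' F _ x y hx hy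
  have hneg : (-1 : SL(2, ℤ)) ∈ Γ := hle hneg'
  obtain ⟨m, hm⟩ := hD1 Γ hneg F x hx.2
  obtain ⟨m', hm'⟩ := hD1 Γ' hneg' F y hy.2
  obtain ⟨e', he'⟩ := (hD4 Γ' hneg' F y m' hm').1 hy.1
  have hres := hRes Γ' Γ hle F x m hm
  have hcores := hCores Γ' Γ hle F y m' hm'
  obtain ⟨hpd, hadj⟩ := hAdj Γ' Γ hle F m m' e' he'
  rw [hA1 Γ' hneg' F _ y _ m' e' (isCuspidalOn_res hle x hx).1 hres hm' he',
    hA1 Γ hneg F x _ m _ _ hx.1 hm hcores hpd]
  exact hadj

end Fermat.Agent.S41.H221
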