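import Mathlib
import Fermat.Agent.S21.H585.Presentation

/-!
# S41, block PD, leaf HEIS, part 1 (helper221): Heisenberg cocycles on `SL(2,ℤ)`-sets

`Heis(R) = R³`, `(a, b, c) (a', b', c') = (a + a', b + b', c + c' + a b')`.  A Heisenberg cocycle on an
`SL(2,ℤ)`-set `X` is a triple `a b c : SL(2,ℤ) → X → R` with `C (g h) x = C g (h x) · C h x`, i.e.
`a, b` additive cocycles and `c (g h) x = c h x + c g (h x) + a g (h x) * b h x`.

* `exists_heisCocycle` : existence with prescribed values on `S` (trivial) and `S T`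
  (from the presentation of `SL(2,ℤ)`, `Fermat.Agent.S21.H585.exists_hom_of_sq_cube`).
* `addCocycle_ext`     : additive cocycles are determined by their values on `S`, `S T`.
-/

set_option autoImplicit false

namespace Fermat.Agent.S41.H221

open Matrix ModularGroup
open scoped MatrixGroups

section

variable {X : Type*} [MulAction SL(2, ℤ) X] {R : Type*} [CommRing R]

/-- The permutation `(x, t) ↦ (g • x, (a x, b x, c x) · t)` of `X × Heis(R)`. -/
def heisPerm (g : SL(2, ℤ)) (a b c : X → R) : Equiv.Perm (X × R × R × R) where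
  toFun z := (g • z.1, z.2.1 + a z.1, z.2.2.1 + b z.1, z.2.2.2 + c z.1 + a z.1 * z.2.2.1)
  invFun z := (g⁻¹ • z.1, z.2.1 - a (g⁻¹ • z.1), z.2.2.1 - b (g⁻¹ • z.1),
    z.2.2.2 - c (g⁻¹ • z.1) - a (g⁻¹ • z.1) * (z.2.2.1 - b (g⁻¹ • z.1)))
  left_inv z := by
    rcases z with ⟨x, t₁, t₂, t₃⟩
    simp only [inv_smul_smul]
    refine Prod.ext rfl (Prod.ext ?_ (Prod.ext ?_ ?_)) <;> first | (simp; done) | (simp; ring)
  right_inv z := by
    rcases z with ⟨x, t₁, t₂, t₃⟩
    simp only [smul_inv_smul]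
    refine Prod.ext rfl (Prod.ext ?_ (Prod.ext ?_ ?_)) <;> first | (simp; done) | (simp; ring)

@[simp] lemma heisPerm_apply (g : SL(2, ℤ)) (a b c : X → R) (x : X) (t₁ t₂ t₃ : R) :
    heisPerm g a b c (x, t₁, t₂, t₃) = (g • x, t₁ + a x, t₂ + b x, t₃ + c x + a x * t₂) := rfl

/-- Heisenberg cocycles. -/
structure IsHeisCocycle (a b c : SL(2, ℤ) → X → R) : Prop where
  a_mul : ∀ g h x, a (g * h) x = a h x + a g (h • x)
  b_mul : ∀ g h x, b (g * h) x = b h x + b g (h • x)
  c_mul : ∀ g h x, c (g * h) x = c h x + c g (h • x) + a g (h • x) * b h x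

lemma closure_S_ST_eq_top : Subgroup.closure ({S, S * T} : Set SL(2, ℤ)) = ⊤ := by
  rw [eq_top_iff, ← _root_.SpecialLinearGroup.SL2Z_generators, Subgroup.closure_le]
  rintro x (rfl | rfl)
  · exact Subgroup.subset_closure (by simp)
  · have h1 : S ∈ Subgroup.closure ({S, S * T} : Set SL(2, ℤ)) :=
      Subgroup.subset_closure (by simp)
    have h2 : S * T ∈ Subgroup.closure ({S, S * T} : Set SL(2, ℤ)) :=
      Subgroup.subset_closure (by simp)
    have h3 := mul_mem (inv_mem h1) h2
    rwa [inv_mul_cancel_left] at h3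

lemma S_mul_S_eq_neg_one' : (S * S : SL(2, ℤ)) = -1 := by
  apply Subtype.ext
  rw [Matrix.SpecialLinearGroup.coe_mul, Matrix.SpecialLinearGroup.coe_neg,
    Matrix.SpecialLinearGroup.coe_one, S_mul_S_eq]

lemma ST_cube_eq_neg_one' : ((S * T) * (S * T) * (S * T) : SL(2, ℤ)) = -1 := by
  apply Subtype.ext
  rw [Matrix.SpecialLinearGroup.coe_mul, Matrix.SpecialLinearGroup.coe_mul,
    Matrix.SpecialLinearGroup.coe_mul, Matrix.SpecialLinearGroup.coe_neg,
    Matrix.SpecialLinearGroup.coe_one, coe_S, coe_T]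
  ext i j
  fin_cases i <;> fin_cases j <;> simp [Matrix.mul_apply, Fin.sum_univ_two]

/-- **Existence of Heisenberg cocycles** with prescribed values on `S` (trivial) and `S * T`. -/
theorem exists_heisCocycle (hneg : ∀ x : X, (-1 : SL(2, ℤ)) • x = x) (u v z : X → R)
    (hu : ∀ x, u x + u ((S * T) • x) + u ((S * T) • (S * T) • x) = 0)
    (hv : ∀ x, v x + v ((S * T) • x) + v ((S * T) • (S * T) • x) = 0)
    (hz : ∀ x, z x + z ((S * T) • x) + z ((S * T) • (S * T) • x) + u ((S * T) • x) * v x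
      + u ((S * T) • (S * T) • x) * (v x + v ((S * T) • x)) = 0) :
    ∃ a b c : SL(2, ℤ) → X → R, IsHeisCocycle a b c ∧
      a S = 0 ∧ b S = 0 ∧ c S = 0 ∧ a (S * T) = u ∧ b (S * T) = v ∧ c (S * T) = z := by
  have hs : (heisPerm S (0 : X → R) 0 0 : Equiv.Perm (X × R × R × R)) ^ 2 = 1 := by
    ext ⟨x, t₁, t₂, t₃⟩ : 1
    rw [pow_two, Equiv.Perm.mul_apply, heisPerm_apply, heisPerm_apply, Equiv.Perm.one_apply,
      ← mul_smul, S_mul_S_eq_neg_one', hneg]
    simp
  have hU : (heisPerm (S * T) u v z : Equiv.Perm (X × R × R × R)) ^ 3 = 1 := by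
    ext ⟨x, t₁, t₂, t₃⟩ : 1
    rw [pow_succ, pow_two, Equiv.Perm.mul_apply, Equiv.Perm.mul_apply, heisPerm_apply,
      heisPerm_apply, heisPerm_apply, Equiv.Perm.one_apply]
    have h1 : (S * T) • (S * T) • (S * T) • x = x := by
      rw [smul_smul, smul_smul, ST_cube_eq_neg_one', hneg]
    rw [h1]
    refine Prod.ext rfl (Prod.ext ?_ (Prod.ext ?_ ?_))
    · show t₁ + u x + u ((S * T) • x) + u ((S * T) • (S * T) • x) = t₁
      linear_combination hu x
    · show t₂ + v x + v ((S * T) • x) + v ((S * T) • (S * T) • x) = t₂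
      linear_combination hv x
    · show t₃ + z x + u x * t₂ + z ((S * T) • x) + u ((S * T) • x) * (t₂ + v x)
        + z ((S * T) • (S * T) • x) + u ((S * T) • (S * T) • x) * (t₂ + v x + v ((S * T) • x))
        = t₃
      linear_combination hz x + t₂ * hu x
  obtain ⟨Φ, hΦS, hΦU⟩ := Fermat.Agent.S21.H585.exists_hom_of_sq_cube _ _ hs hU
  -- every `Φ g` has the Heisenberg shape over `g`
  have hP : ∀ g : SL(2, ℤ), ∃ a b c : X → R, ∀ x t₁ t₂ t₃,
      Φ g (x, t₁, t₂, t₃) = (g • x, t₁ + a x, t₂ + b x, t₃ + c x + a x * t₂) := by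
    intro g
    have hg : g ∈ Subgroup.closure ({S, S * T} : Set SL(2, ℤ)) := by
      rw [closure_S_ST_eq_top]; trivial
    induction hg using Subgroup.closure_induction with
    | mem x hx =>
      rcases hx with rfl | rfl
      · exact ⟨0, 0, 0, fun x t₁ t₂ t₃ => by rw [hΦS, heisPerm_apply]⟩
      · exact ⟨u, v, z, fun x t₁ t₂ t₃ => by rw [hΦU, heisPerm_apply]⟩
    | one => exact ⟨0, 0, 0, fun x t₁ t₂ t₃ => by simp⟩
    | mul g h _ _ hg hh =>
      obtain ⟨a, b, c, hm⟩ := hg
      obtain ⟨a', b', c', hn⟩ := hh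
      refine ⟨fun x => a' x + a (h • x), fun x => b' x + b (h • x),
        fun x => c' x + c (h • x) + a (h • x) * b' x, fun x t₁ t₂ t₃ => ?_⟩
      rw [map_mul, Equiv.Perm.mul_apply, hn, hm, mul_smul]
      refine Prod.ext rfl (Prod.ext ?_ (Prod.ext ?_ ?_))
      · show t₁ + a' x + a (h • x) = t₁ + (a' x + a (h • x))
        ring
      · show t₂ + b' x + b (h • x) = t₂ + (b' x + b (h • x))
        ring
      · show t₃ + c' x + a' x * t₂ + c (h • x) + a (h • x) * (t₂ + b' x) =
          t₃ + (c' x + c (h • x) + a (h • x) * b' x) + (a' x + a (h • x)) * t₂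
        ring
    | inv g _ hg =>
      obtain ⟨a, b, c, hm⟩ := hg
      refine ⟨fun x => - a (g⁻¹ • x), fun x => - b (g⁻¹ • x),
        fun x => - c (g⁻¹ • x) + a (g⁻¹ • x) * b (g⁻¹ • x), fun x t₁ t₂ t₃ => ?_⟩
      rw [map_inv, Equiv.Perm.inv_eq_iff_eq, hm, smul_inv_smul]
      refine Prod.ext rfl (Prod.ext ?_ (Prod.ext ?_ ?_))
      · show t₁ = t₁ + -a (g⁻¹ • x) + a (g⁻¹ • x)
        ring
      · show t₂ = t₂ + -b (g⁻¹ • x) + b (g⁻¹ • x)
        ring
      · show t₃ = t₃ + (-c (g⁻¹ • x) + a (g⁻¹ • x) * b (g⁻¹ • x)) + -a (g⁻¹ • x) * t₂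
          + c (g⁻¹ • x) + a (g⁻¹ • x) * (t₂ + -b (g⁻¹ • x))
        ring
  choose a b c habc using hP
  have key : ∀ g h x, (a (g * h) x, b (g * h) x, c (g * h) x) =
      (a h x + a g (h • x), b h x + b g (h • x), c h x + c g (h • x) + a g (h • x) * b h x) := by
    intro g h x
    have h1 := habc (g * h) x 0 0 0
    rw [map_mul, Equiv.Perm.mul_apply, habc h, habc g] at h1
    have h2 := (congrArg Prod.snd h1).symm
    simpa using h2
  refine ⟨a, b, c, ⟨fun g h x => ?_, fun g h x => ?_, fun g h x => ?_⟩, ?_, ?_, ?_, ?_, ?_, ?_⟩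
  · exact congrArg Prod.fst (key g h x)
  · exact congrArg (fun p => p.2.1) (key g h x)
  · exact congrArg (fun p => p.2.2) (key g h x)
  all_goals
    funext x
    first
    | (have h1 := habc S x 0 0 0
       rw [hΦS, heisPerm_apply] at h1
       have h2 := (congrArg Prod.snd h1).symm
       simp only [Prod.mk.injEq] at h2
       simpa using h2.1)
    | (have h1 := habc S x 0 0 0
       rw [hΦS, heisPerm_apply] at h1
       have h2 := (congrArg Prod.snd h1).symm
       simp only [Prod.mk.injEq] at h2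
       simpa using h2.2.1)
    | (have h1 := habc S x 0 0 0
       rw [hΦS, heisPerm_apply] at h1
       have h2 := (congrArg Prod.snd h1).symm
       simp only [Prod.mk.injEq] at h2
       simpa using h2.2.2)
    | (have h1 := habc (S * T) x 0 0 0
       rw [hΦU, heisPerm_apply] at h1
       have h2 := (congrArg Prod.snd h1).symm
       simp only [Prod.mk.injEq] at h2
       simpa using h2.1)
    | (have h1 := habc (S * T) x 0 0 0
       rw [hΦU, heisPerm_apply] at h1
       have h2 := (congrArg Prod.snd h1).symm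
       simp only [Prod.mk.injEq] at h2
       simpa using h2.2.1)
    | (have h1 := habc (S * T) x 0 0 0
       rw [hΦU, heisPerm_apply] at h1
       have h2 := (congrArg Prod.snd h1).symm
       simp only [Prod.mk.injEq] at h2
       simpa using h2.2.2)

end

section Additive

variable {X : Type*} [MulAction SL(2, ℤ) X] {A : Type*} [AddCommGroup A]

lemma addCocycle_one {f : SL(2, ℤ) → X → A} (hf : ∀ g h x, f (g * h) x = f h x + f g (h • x))
    (x : X) : f 1 x = 0 := by
  have := hf 1 1 x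
  rw [one_mul, one_smul] at this
  exact left_eq_add.mp this

lemma addCocycle_inv {f : SL(2, ℤ) → X → A} (hf : ∀ g h x, f (g * h) x = f h x + f g (h • x))
    (g : SL(2, ℤ)) (x : X) : f g⁻¹ x = - f g (g⁻¹ • x) := by
  have := hf g g⁻¹ x
  rw [mul_inv_cancel, addCocycle_one hf] at this
  exact eq_neg_of_add_eq_zero_left this.symm

/-- Additive cocycles are determined by their values on `S` and `S * T`. -/
theorem addCocycle_ext {f f' : SL(2, ℤ) → X → A}
    (hf : ∀ g h x, f (g * h) x = f h x + f g (h • x))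
    (hf' : ∀ g h x, f' (g * h) x = f' h x + f' g (h • x))
    (hS : f S = f' S) (hU : f (S * T) = f' (S * T)) : f = f' := by
  funext g
  have hg : g ∈ Subgroup.closure ({S, S * T} : Set SL(2, ℤ)) := by
    rw [closure_S_ST_eq_top]; trivial
  induction hg using Subgroup.closure_induction with
  | mem x hx =>
    rcases hx with rfl | rfl
    · exact hS
    · exact hU
  | one =>
    funext x
    rw [addCocycle_one hf, addCocycle_one hf']
  | mul g h _ _ hg hh =>
    funext x
    rw [hf, hf', hg, hh]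
  | inv g _ hg =>
    funext x
    rw [addCocycle_inv hf, addCocycle_inv hf', hg]

end Additive

end Fermat.Agent.S41.H221
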