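import Mathlib
import Fermat.Agent.S41.H221.PDHeisCocycle
import Fermat.Agent.S41.H221.PDAsm1

/-!
# S41, block PD, leaf HEIS (helper221): Heisenberg lifts and the β-formula

`heisLift : Spec.TorsionClassStatement → Spec.HeisLiftStatement`.

For Manin representatives `m, m'` of `φ, ψ` with parabolic data `e, e'` the Heisenberg cocycle
`C = (a, b, c)` with `C S = 1`, `C (S T) = (m|U - m, m'|U - m', z)`, `z x = m x * (m' x - m' (U⁻¹ x))`,
gives `ζ γ = c γ x₀`, and along every `T`-orbit system `∑ᵢ ζ (γᵢ) = ∑ₓ (z x + (e (T x) - e x) * e' x)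
= - maninForm m e'`.
-/

set_option autoImplicit false

namespace Fermat.Agent.S41.H221

open CongruenceSubgroup Matrix.SpecialLinearGroup ModularCurve.Period ModularGroup
open Fermat.Agent.S41.Spec
open scoped MatrixGroups

universe u

section Abstract

variable {X : Type*} [MulAction SL(2, ℤ) X] {R : Type*} [CommRing R]
variable {a b c : SL(2, ℤ) → X → R}

lemma IsHeisCocycle.a_one (h : IsHeisCocycle a b c) (x : X) : a 1 x = 0 :=
  addCocycle_one h.a_mul x

lemma IsHeisCocycle.b_one (h : IsHeisCocycle a b c) (x : X) : b 1 x = 0 :=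
  addCocycle_one h.b_mul x

lemma IsHeisCocycle.c_one (h : IsHeisCocycle a b c) (x : X) : c 1 x = 0 := by
  have := h.c_mul 1 1 x
  rw [one_mul, one_smul, h.a_one, zero_mul, add_zero] at this
  exact left_eq_add.mp this

lemma IsHeisCocycle.c_inv (h : IsHeisCocycle a b c) (g : SL(2, ℤ)) (x : X) :
    c g⁻¹ (g • x) = - c g x - a g⁻¹ (g • x) * b g x := by
  have := h.c_mul g⁻¹ g x
  rw [inv_mul_cancel, h.c_one] at this
  linear_combination -this

/-- The value of `c` on a conjugate `h⁻¹ t h` fixing `x₀`, when `C t (h x₀)` is central. -/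
lemma IsHeisCocycle.c_conj (h : IsHeisCocycle a b c) (g t : SL(2, ℤ)) (x₀ : X)
    (ha : a t (g • x₀) = 0) (hb : b t (g • x₀) = 0) (hfix : t • g • x₀ = g • x₀) :
    c (g⁻¹ * t * g) x₀ = c t (g • x₀) := by
  rw [mul_assoc, h.c_mul, h.c_mul t g, h.b_mul t g, mul_smul, hfix, ha, hb, h.c_inv]
  ring

lemma IsHeisCocycle.a_conj (h : IsHeisCocycle a b c) (g t : SL(2, ℤ)) (x₀ : X)
    (hfix : t • g • x₀ = g • x₀) : a (g⁻¹ * t * g) x₀ = a t (g • x₀) := by
  rw [mul_assoc, h.a_mul, h.a_mul t g, mul_smul, hfix, addCocycle_inv h.a_mul, inv_smul_smul]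
  abel

lemma addCocycle_pow {A : Type*} [AddCommGroup A] {f : SL(2, ℤ) → X → A}
    (hf : ∀ g h x, f (g * h) x = f h x + f g (h • x)) (t : SL(2, ℤ)) (e : X → A)
    (he : ∀ x, f t x = e (t • x) - e x) (k : ℕ) (y : X) :
    f (t ^ k) y = e (t ^ k • y) - e y := by
  induction k with
  | zero => simp [addCocycle_one hf]
  | succ k ih =>
    rw [pow_succ', hf, ih, he, mul_smul]
    abel

lemma IsHeisCocycle.c_pow (h : IsHeisCocycle a b c) (t : SL(2, ℤ)) (e e' : X → R)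
    (ha : ∀ x, a t x = e (t • x) - e x) (hb : ∀ x, b t x = e' (t • x) - e' x) (k : ℕ) (y : X) :
    c (t ^ k) y = ∑ j ∈ Finset.range k,
      (c t (t ^ j • y) + (e (t ^ (j + 1) • y) - e (t ^ j • y)) * (e' (t ^ j • y) - e' y)) := by
  induction k with
  | zero => simp [h.c_one]
  | succ k ih =>
    rw [pow_succ', h.c_mul, ih, Finset.sum_range_succ, ha, addCocycle_pow h.b_mul t e' hb,
      ← mul_smul, ← pow_succ']
    exact add_assoc _ _ _

/-- The monodromy of a Heisenberg cocycle along a closed `t`-orbit. -/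
lemma IsHeisCocycle.c_pow_of_fixed (h : IsHeisCocycle a b c) (t : SL(2, ℤ)) (e e' : X → R)
    (ha : ∀ x, a t x = e (t • x) - e x) (hb : ∀ x, b t x = e' (t • x) - e' x) (k : ℕ) (y : X)
    (hy : t ^ k • y = y) :
    c (t ^ k) y = ∑ j ∈ Finset.range k,
      (c t (t ^ j • y) + (e (t • t ^ j • y) - e (t ^ j • y)) * e' (t ^ j • y)) := by
  rw [h.c_pow t e e' ha hb]
  have htel : ∑ j ∈ Finset.range k, (e (t ^ (j + 1) • y) - e (t ^ j • y)) = 0 := by
    rw [Finset.sum_range_sub (fun j => e (t ^ j • y)), hy, pow_zero, one_smul, sub_self]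
  have : ∀ j, e (t • t ^ j • y) = e (t ^ (j + 1) • y) := by
    intro j
    rw [← mul_smul, ← pow_succ']
  simp only [this]
  have e1 : ∀ j, (c t (t ^ j • y) + (e (t ^ (j + 1) • y) - e (t ^ j • y)) * (e' (t ^ j • y) - e' y))
      = (c t (t ^ j • y) + (e (t ^ (j + 1) • y) - e (t ^ j • y)) * e' (t ^ j • y))
        - (e (t ^ (j + 1) • y) - e (t ^ j • y)) * e' y := by
    intro j; ring
  simp only [e1, Finset.sum_sub_distrib, ← Finset.sum_mul, htel, zero_mul, sub_zero]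

end Abstract

section Quot

variable {Γ : Subgroup SL(2, ℤ)}

lemma smul_one_coset_of_mem {γ : SL(2, ℤ)} (hγ : γ ∈ Γ) :
    γ • ((1 : SL(2, ℤ)) : SL(2, ℤ) ⧸ Γ) = ((1 : SL(2, ℤ)) : SL(2, ℤ) ⧸ Γ) := by
  rw [MulAction.Quotient.smul_mk, smul_eq_mul, mul_one, QuotientGroup.eq, mul_one]
  exact inv_mem hγ

lemma smul_one_coset (g : SL(2, ℤ)) :
    g • ((1 : SL(2, ℤ)) : SL(2, ℤ) ⧸ Γ) = ((g : SL(2, ℤ)) : SL(2, ℤ) ⧸ Γ) := by
  rw [MulAction.Quotient.smul_mk, smul_eq_mul, mul_one]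

lemma neg_one_smul_coset (hneg : (-1 : SL(2, ℤ)) ∈ Γ) (x : SL(2, ℤ) ⧸ Γ) :
    (-1 : SL(2, ℤ)) • x = x := by
  rw [← S_mul_S_eq_neg_one', mul_smul]
  exact S_smul_S_smul hneg x

lemma ST_cube_smul (hneg : (-1 : SL(2, ℤ)) ∈ Γ) (x : SL(2, ℤ) ⧸ Γ) :
    (S * T) • (S * T) • (S * T) • x = x := by
  rw [smul_smul, smul_smul, ST_cube_eq_neg_one', neg_one_smul_coset hneg]

lemma ST_inv_smul (hneg : (-1 : SL(2, ℤ)) ∈ Γ) (x : SL(2, ℤ) ⧸ Γ) :
    (S * T)⁻¹ • x = (S * T) • (S * T) • x := by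
  conv_lhs => rw [← ST_cube_smul hneg x]
  rw [inv_smul_smul]

end Quot

/-- **Leaf HEIS.** -/
theorem heisLift (tors : TorsionClassStatement) : HeisLiftStatement.{u} := by
  intro Γ _ hneg R _ φ ψ m m' e e' hm hm' he he'
  obtain ⟨f, ⟨hf, hfS, hfU⟩, hφ⟩ := hm
  obtain ⟨f', ⟨hf', hf'S, hf'U⟩, hψ⟩ := hm'
  have : Fintype (SL(2, ℤ) ⧸ Γ) := Fintype.ofFinite _
  have hnegX : ∀ x : SL(2, ℤ) ⧸ Γ, (-1 : SL(2, ℤ)) • x = x := neg_one_smul_coset hneg
  have hU3 := ST_cube_smul (Γ := Γ) hneg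
  have hUi := ST_inv_smul (Γ := Γ) hneg
  -- the Heisenberg cocycle
  obtain ⟨a, b, c, hC, haS, hbS, hcS, haU, hbU, hcU⟩ := exists_heisCocycle hnegX
    (fun x => m ((S * T) • x) - m x) (fun x => m' ((S * T) • x) - m' x)
    (fun x => m x * (m' x - m' ((S * T)⁻¹ • x)))
    (fun x => by simp only [hU3]; ring) (fun x => by simp only [hU3]; ring)
    (fun x => by
      simp only [hUi, hU3]
      ring)
  have haf : a = f := addCocycle_ext hC.a_mul hf (by rw [haS]; funext x; exact (hfS x).symm)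
    (by rw [haU]; funext x; exact (hfU x).symm)
  have hbf : b = f' := addCocycle_ext hC.b_mul hf' (by rw [hbS]; funext x; exact (hf'S x).symm)
    (by rw [hbU]; funext x; exact (hf'U x).symm)
  set x₀ : SL(2, ℤ) ⧸ Γ := ((1 : SL(2, ℤ)) : SL(2, ℤ) ⧸ Γ) with hx₀
  have hφa : ∀ γ : Γ, φ (Additive.ofMul γ) = a (γ : SL(2, ℤ)) x₀ := by
    intro γ; rw [haf]; exact hφ γ
  have hψb : ∀ γ : Γ, ψ (Additive.ofMul γ) = b (γ : SL(2, ℤ)) x₀ := by
    intro γ; rw [hbf]; exact hψ γ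
  -- values at `S⁻¹`, `T`, `-1`
  have haSi : ∀ y, a S⁻¹ y = 0 := fun y => by
    rw [addCocycle_inv hC.a_mul, haS]; simp
  have hbSi : ∀ y, b S⁻¹ y = 0 := fun y => by
    rw [addCocycle_inv hC.b_mul, hbS]; simp
  have hcSi : ∀ y, c S⁻¹ y = 0 := fun y => by
    have := hC.c_inv S (S⁻¹ • y)
    rw [smul_inv_smul, hcS, haSi] at this
    simpa using this
  have hT : (T : SL(2, ℤ)) = S⁻¹ * (S * T) := by rw [inv_mul_cancel_left]
  have haT : ∀ x, a T x = e (T • x) - e x := fun x => by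
    rw [hT, hC.a_mul, haSi, add_zero, haU, ← hT]
    exact (he x).symm
  have hbT : ∀ x, b T x = e' (T • x) - e' x := fun x => by
    rw [hT, hC.b_mul, hbSi, add_zero, hbU, ← hT]
    exact (he' x).symm
  have hcT : ∀ x, c T x = m x * (m' x - m' ((S * T)⁻¹ • x)) := fun x => by
    conv_lhs => rw [hT]
    rw [hC.c_mul, hcSi, haSi, hcU]
    ring
  have haN : ∀ y, a (-1) y = 0 := fun y => by
    rw [← S_mul_S_eq_neg_one', hC.a_mul, haS]; simp
  have hbN : ∀ y, b (-1) y = 0 := fun y => by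
    rw [← S_mul_S_eq_neg_one', hC.b_mul, hbS]; simp
  have hcN : ∀ y, c (-1) y = 0 := fun y => by
    rw [← S_mul_S_eq_neg_one', hC.c_mul, hcS, haS]; simp
  -- `C (-t) = C t`
  have hneg_mul : ∀ (t : SL(2, ℤ)) (y : SL(2, ℤ) ⧸ Γ),
      a (-t) y = a t y ∧ b (-t) y = b t y ∧ c (-t) y = c t y := by
    intro t y
    have e1 : -t = (-1) * t := by simp
    rw [e1, hC.a_mul, hC.b_mul, hC.c_mul, haN, hbN, hcN]
    simp
  -- `C (U²) = 1` at fixed points of `U`
  have hUfix : ∀ y : SL(2, ℤ) ⧸ Γ, (S * T) • y = y →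
      a (S * T) y = 0 ∧ b (S * T) y = 0 ∧ c (S * T) y = 0 := by
    intro y hy
    have hy' : (S * T)⁻¹ • y = y := by
      conv_lhs => rw [← hy]
      rw [inv_smul_smul]
    rw [haU, hbU, hcU]
    simp only [hy, hy', sub_self, mul_zero, and_self]
  have hU2fix : ∀ y : SL(2, ℤ) ⧸ Γ, (S * T) ^ 2 • y = y →
      a ((S * T) ^ 2) y = 0 ∧ b ((S * T) ^ 2) y = 0 ∧ c ((S * T) ^ 2) y = 0 := by
    intro y hy
    have hy1 : (S * T) • y = y := by
      have := hU3 y
      rw [pow_two, mul_smul] at hy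
      rw [hy] at this
      exact this
    obtain ⟨h1, h2, h3⟩ := hUfix y hy1
    rw [pow_two, hC.a_mul, hC.b_mul, hC.c_mul, hy1, h1, h2, h3]
    simp
  refine ⟨fun γ => c (γ : SL(2, ℤ)) x₀, ⟨fun γ γ' => ?_, fun γ hγ => ?_⟩, ?_⟩
  · -- the Heisenberg relation
    show c ((γ : SL(2, ℤ)) * (γ' : SL(2, ℤ))) x₀ = _
    rw [hC.c_mul, smul_one_coset_of_mem γ'.2, hφa, hψb]
    ring
  · -- torsion
    have hγ' : IsOfFinOrder (γ : SL(2, ℤ)) := Γ.subtype.isOfFinOrder hγ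
    obtain ⟨g, hg⟩ := tors (γ : SL(2, ℤ)) hγ'
    set t := g * (γ : SL(2, ℤ)) * g⁻¹ with ht
    have hγt : (γ : SL(2, ℤ)) = g⁻¹ * t * g := by
      rw [ht]; group
    have hfix : t • g • x₀ = g • x₀ := by
      rw [ht, ← mul_smul, inv_mul_cancel_right, mul_smul, smul_one_coset_of_mem γ.2]
    -- `C t (g x₀) = 1`
    have hCt : a t (g • x₀) = 0 ∧ b t (g • x₀) = 0 ∧ c t (g • x₀) = 0 := by
      have hfixn : ∀ s : SL(2, ℤ), (-s) • g • x₀ = g • x₀ → s • g • x₀ = g • x₀ := by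
        intro s hs
        have e1 : -s = (-1) * s := by simp
        rw [e1, mul_smul, hnegX] at hs
        exact hs
      rcases hg with h1 | h1 | h1 | h1 | h1 | h1 | h1 | h1
      · rw [h1]; exact ⟨hC.a_one _, hC.b_one _, hC.c_one _⟩
      · rw [h1]; exact ⟨haN _, hbN _, hcN _⟩
      · rw [h1, haS, hbS, hcS]; simp
      · rw [h1]
        obtain ⟨e1, e2, e3⟩ := hneg_mul S (g • x₀)
        rw [e1, e2, e3, haS, hbS, hcS]; simp
      · rw [h1]; rw [h1] at hfix; exact hUfix _ hfix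
      · rw [h1]; rw [h1] at hfix
        obtain ⟨e1, e2, e3⟩ := hneg_mul (S * T) (g • x₀)
        rw [e1, e2, e3]
        exact hUfix _ (hfixn _ hfix)
      · rw [h1]; rw [h1] at hfix; exact hU2fix _ hfix
      · rw [h1]; rw [h1] at hfix
        obtain ⟨e1, e2, e3⟩ := hneg_mul ((S * T) ^ 2) (g • x₀)
        rw [e1, e2, e3]
        exact hU2fix _ (hfixn _ hfix)
    show c (γ : SL(2, ℤ)) x₀ = 0
    rw [hγt, hC.c_conj g t x₀ hCt.1 hCt.2.1 hfix, hCt.2.2]
  · -- the β-formula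
    intro ι _ γ h w hsys
    obtain ⟨hw, hγ, hbij⟩ := hsys
    -- the summand
    set G : SL(2, ℤ) ⧸ Γ → R := fun x =>
      m x * (m' x - m' ((S * T)⁻¹ • x)) + (e (T • x) - e x) * e' x with hG
    have hone : ∀ i, c ((γ i : Γ) : SL(2, ℤ)) x₀ =
        ∑ j ∈ Finset.range (w i), G (T ^ j • h i • x₀) := by
      intro i
      have hfix : T ^ (w i) • h i • x₀ = h i • x₀ := by
        have := smul_one_coset_of_mem (γ i).2
        rw [hγ i, mul_smul, mul_smul] at this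
        have h2 := congrArg (fun y => h i • y) this
        simp only [smul_inv_smul] at h2
        exact h2
      have ha0 : a (T ^ (w i)) (h i • x₀) = 0 := by
        rw [addCocycle_pow hC.a_mul T e haT, hfix, sub_self]
      have hb0 : b (T ^ (w i)) (h i • x₀) = 0 := by
        rw [addCocycle_pow hC.b_mul T e' hbT, hfix, sub_self]
      rw [hγ i, hC.c_conj (h i) (T ^ (w i)) x₀ ha0 hb0 hfix,
        hC.c_pow_of_fixed T e e' haT hbT (w i) (h i • x₀) hfix]
      refine Finset.sum_congr rfl fun j _ => ?_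
      rw [hcT]
    -- reindexing by the `T`-orbit system
    let Φ : (Σ i, Fin (w i)) → SL(2, ℤ) ⧸ Γ := fun p =>
      ((T ^ (p.2 : ℕ) * h p.1 : SL(2, ℤ)) : SL(2, ℤ) ⧸ Γ)
    have hΦ : Function.Bijective Φ := by
      constructor
      · intro p p' hpp
        obtain ⟨p₀, -, hp₀⟩ := hbij (Φ p)
        rw [hp₀ p rfl, hp₀ p' hpp]
      · intro x
        obtain ⟨p, hp, -⟩ := hbij x
        exact ⟨p, hp.symm⟩
    have hsum : ∑ i, c ((γ i : Γ) : SL(2, ℤ)) x₀ = ∑ x : SL(2, ℤ) ⧸ Γ, G x := by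
      rw [← Fintype.sum_bijective Φ hΦ (fun p => G (Φ p)) G (fun p => rfl), Fintype.sum_sigma]
      refine Finset.sum_congr rfl fun i _ => ?_
      rw [hone i, ← Fin.sum_univ_eq_sum_range (fun j => G (T ^ j • h i • x₀)) (w i)]
      refine Finset.sum_congr rfl fun j _ => ?_
      show G (T ^ (j : ℕ) • h i • x₀) = G (((T ^ (j : ℕ) * h i : SL(2, ℤ)) : SL(2, ℤ) ⧸ Γ))
      rw [← mul_smul, smul_one_coset]
    show ∑ i, c ((γ i : Γ) : SL(2, ℤ)) x₀ = - maninForm Γ m e'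
    rw [hsum, maninForm_eq_sum, eq_neg_iff_add_eq_zero, ← Finset.sum_add_distrib]
    -- the final computation
    have r1 : ∑ x : SL(2, ℤ) ⧸ Γ, m ((S * T) • x) * m' x =
        ∑ x : SL(2, ℤ) ⧸ Γ, m x * m' ((S * T)⁻¹ • x) := by
      rw [← Equiv.sum_comp (MulAction.toPerm (S * T : SL(2, ℤ)))
        (fun x => m x * m' ((S * T)⁻¹ • x))]
      refine Finset.sum_congr rfl fun x _ => ?_
      simp only [MulAction.toPerm_apply, inv_smul_smul]
    have r2 : ∑ x : SL(2, ℤ) ⧸ Γ, m ((S * T) • x) * (m' x - e' x) =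
        ∑ x : SL(2, ℤ) ⧸ Γ, m x * (m' x - e' (S • x)) := by
      rw [← Equiv.sum_comp (MulAction.toPerm (S * T : SL(2, ℤ)))
        (fun x => m x * (m' x - e' (S • x)))]
      refine Finset.sum_congr rfl fun x _ => ?_
      simp only [MulAction.toPerm_apply]
      rw [S_smul_ST_smul hneg]
      have := he' x
      congr 1
      linear_combination this
    have key : ∀ x : SL(2, ℤ) ⧸ Γ, G x + m x * (e' x - e' (S • x)) =
        (m ((S * T) • x) * m' x - m x * m' ((S * T)⁻¹ • x)) +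
          (m x * (m' x - e' (S • x)) - m ((S * T) • x) * (m' x - e' x)) := by
      intro x
      have := he x
      simp only [hG]
      linear_combination e' x * this
    simp only [key, Finset.sum_add_distrib, Finset.sum_sub_distrib, r1, r2, sub_self, add_zero]

end Fermat.Agent.S41.H221
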