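import Fermat.Agent.S41.H221.PDAsm2
import Fermat.Agent.S41.H221.PDHeis
import Fermat.Agent.S41.H281.PDLinAlg
import Fermat.Agent.S41.H768.Tors
import Fermat.Agent.S41.H460.DictA
import Fermat.Agent.S41.H581.PDDictB
import Fermat.Agent.S41.H683.PDTr
import Fermat.Agent.S41.H236.PDHeisU
import Fermat.Agent.S41.H769.CuspOrbit
import Fermat.Agent.S41.H769.CuspIndep
import Fermat.Agent.S41.H585.PDFree
import Fermat.Agent.S41.H581.RestrictCusp

/-!
# S41 — blocks PD and LIFT, CLOSED (helper221, final plug)

* `pd      : Spec.PDStatement`       — Poincaré duality family on the cuspidal classes of `Γ₀(n)`, any field;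
* `pdHecke : Spec.PDHeckeStatement`  — the same with `T_l` self-adjoint (what Glue consumes);
* `lift    : Spec.LiftStatement`     — cuspidal classes mod `p` lift to `ℤ`.

Leaves: LA `H281`, TORS `H768`, DICT-a `H460`, DICT-b `H581`, TR `H683`, HEIS `H221`, HEIS-U `H236`,
CUSP `H769`, PD-HECKE `H585`, HK-1a `H581`, HK-4 `H761`; assembly `H221/PDAsm1, PDAsm2`.
-/

set_option autoImplicit false

namespace Fermat.Agent.S41.H221

open Fermat.Agent.S41.Spec

universe u

/-- **Block PD.** -/
theorem pd : PDStatement.{u} :=
  pd_of_leaves H281.maninPerp H281.maninSkew H281.maninParDataOf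
    H460.maninRepExists H460.maninRepZero H460.maninRepInvariant H460.maninRepLinear
    H581.maninRepRealize (H581.maninRepTorsion_of H768.torsionClass) H581.maninRepParabolic
    H683.maninRepRes H683.maninRepCores H683.maninFormAdjoint H683.transferAlongEquiv
    (heisLift H768.torsionClass) (H236.cuspSumZero H460.maninRepExists)
    H769.tOrbitSystemExists H769.tOrbitCusp H769.cuspSumIndep H769.cuspSystemConjDelta

/-- **Block PD with self-adjoint Hecke operators.** -/
theorem pdHecke : PDHeckeStatement.{u} :=
  pdHecke_of_leaves pd H585.pdHeckeOfPD H581.restrictCusp H761.transferRestrictHecke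

/-- **Block LIFT.** -/
theorem lift : LiftStatement :=
  lift_of_leaves H460.maninRepExists H460.maninRepInvariant H460.maninRepLinear
    H581.maninRepRealize (H581.maninRepTorsion_of H768.torsionClass) H581.maninRepParabolic
    H281.parDataLift

end Fermat.Agent.S41.H221
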