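import Mathlib
import Fermat.Agent.S41.Spec.PD

/-!
# S41, block PD — small facts about `Γ₀(n)` and `Γ' = δ Γ₀(N q) δ⁻¹` (helper221)
-/

set_option autoImplicit false

namespace Fermat.Agent.S41.H221

open CongruenceSubgroup Matrix.SpecialLinearGroup ModularCurve.Period ModularGroup
open Fermat.Agent.S41.Spec Fermat.Agent.S29.H642
open scoped MatrixGroups

theorem neg_one_mem_gamma0 (n : ℕ) : (-1 : SL(2, ℤ)) ∈ Gamma0 n := by
  rw [Gamma0_mem]
  simp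

theorem finiteIndex_gamma0 {n : ℕ} (hn : n ≠ 0) : (Gamma0 n).FiniteIndex := by
  have : NeZero n := ⟨hn⟩
  infer_instance

theorem coe_conjDelta (N q : ℕ) (γ : Gamma0 (N * q)) :
    (((conjDelta N q γ : Gamma0 N) : SL(2, ℤ)) : Matrix (Fin 2) (Fin 2) ℤ) =
      conjDeltaMatrix q (γ : SL(2, ℤ)) := rfl

theorem coe_conjDeltaR (N q : ℕ) (γ : Gamma0 (N * q)) :
    (((conjDeltaR N q γ : gamma0Delta N q) : SL(2, ℤ)) : Matrix (Fin 2) (Fin 2) ℤ) =
      conjDeltaMatrix q (γ : SL(2, ℤ)) := rfl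

theorem trace_conjDeltaR (N q : ℕ) (γ : Gamma0 (N * q)) :
    (((conjDeltaR N q γ : gamma0Delta N q) : SL(2, ℤ)) : Matrix (Fin 2) (Fin 2) ℤ).trace =
      (((γ : Gamma0 (N * q)) : SL(2, ℤ)) : Matrix (Fin 2) (Fin 2) ℤ).trace := by
  rw [coe_conjDeltaR, Matrix.trace_fin_two, Matrix.trace_fin_two]
  simp [conjDeltaMatrix]

theorem conjDeltaR_injective (N q : ℕ) (hq : q ≠ 0) : Function.Injective (conjDeltaR N q) := by
  intro γ γ' h
  have h1 : conjDeltaMatrix q (γ : SL(2, ℤ)) = conjDeltaMatrix q (γ' : SL(2, ℤ)) := by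
    rw [← coe_conjDeltaR, ← coe_conjDeltaR, h]
  have hq' : (q : ℤ) ≠ 0 := by exact_mod_cast hq
  obtain ⟨k, hk⟩ := (dvd_of_mem_gamma0_mul γ).1
  obtain ⟨k', hk'⟩ := (dvd_of_mem_gamma0_mul γ').1
  have e00 := congrFun (congrFun h1 0) 0
  have e01 := congrFun (congrFun h1 0) 1
  have e10 := congrFun (congrFun h1 1) 0
  have e11 := congrFun (congrFun h1 1) 1
  simp only [conjDeltaMatrix, Matrix.of_apply, Matrix.cons_val', Matrix.cons_val_zero,
    Matrix.cons_val_one, Matrix.cons_val_fin_one] at e00 e01 e10 e11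
  rw [hk, hk', Int.mul_ediv_cancel_left _ hq', Int.mul_ediv_cancel_left _ hq'] at e10
  apply Subtype.ext
  apply Subtype.ext
  ext i j
  fin_cases i <;> fin_cases j
  · exact e00
  · exact mul_left_cancel₀ hq' e01
  · show (γ : SL(2, ℤ)) 1 0 = (γ' : SL(2, ℤ)) 1 0
    rw [hk, hk', e10]
  · exact e11

theorem conjDeltaR_surjective (N q : ℕ) : Function.Surjective (conjDeltaR N q) :=
  MonoidHom.rangeRestrict_surjective _

/-- `c_δ : Γ₀(N q) ≃* Γ'`. -/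
noncomputable def conjDeltaEquiv (N q : ℕ) (hq : q ≠ 0) : Gamma0 (N * q) ≃* gamma0Delta N q :=
  MulEquiv.ofBijective (conjDeltaR N q) ⟨conjDeltaR_injective N q hq, conjDeltaR_surjective N q⟩

theorem conjDeltaEquiv_apply (N q : ℕ) (hq : q ≠ 0) (γ : Gamma0 (N * q)) :
    conjDeltaEquiv N q hq γ = conjDeltaR N q γ := rfl

theorem inclusion_comp_conjDeltaR (N q : ℕ) :
    (Subgroup.inclusion (gamma0Delta_le N q)).comp (conjDeltaR N q) = conjDelta N q := by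
  ext γ : 1
  apply Subtype.ext
  rfl

theorem neg_one_mem_gamma0Delta (N q : ℕ) : (-1 : SL(2, ℤ)) ∈ gamma0Delta N q := by
  refine ⟨⟨-1, neg_one_mem_gamma0 (N * q)⟩, ?_⟩
  apply Subtype.ext
  show conjDeltaMatrix q (-1 : SL(2, ℤ)) = ((-1 : SL(2, ℤ)) : Matrix (Fin 2) (Fin 2) ℤ)
  ext i j
  fin_cases i <;> fin_cases j <;> simp [conjDeltaMatrix]

theorem gamma_le_gamma0Delta (N q : ℕ) (hq : q ≠ 0) : Gamma (N * q) ≤ gamma0Delta N q := by
  intro g hg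
  rw [Gamma_mem] at hg
  obtain ⟨h00, h01, h10, h11⟩ := hg
  have hq' : (q : ℤ) ≠ 0 := by exact_mod_cast hq
  have d01 : ((N * q : ℕ) : ℤ) ∣ g 0 1 := (ZMod.intCast_zmod_eq_zero_iff_dvd _ _).mp h01
  have d10 : ((N * q : ℕ) : ℤ) ∣ g 1 0 := (ZMod.intCast_zmod_eq_zero_iff_dvd _ _).mp h10
  obtain ⟨b, hb⟩ : (q : ℤ) ∣ g 0 1 := dvd_trans ⟨N, by push_cast; ring⟩ d01
  have hdet : g 0 0 * g 1 1 - g 0 1 * g 1 0 = 1 := by
    have := g.det_coe
    rwa [Matrix.det_fin_two] at this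
  -- the preimage `[[a, b/q], [q c, d]]`
  let M : Matrix (Fin 2) (Fin 2) ℤ := !![g 0 0, b; q * g 1 0, g 1 1]
  have hM : M.det = 1 := by
    rw [Matrix.det_fin_two_of]
    rw [hb] at hdet
    linear_combination hdet
  have hmem : (⟨M, hM⟩ : SL(2, ℤ)) ∈ Gamma0 (N * q) := by
    apply mem_Gamma0_of_dvd
    show ((N * q : ℕ) : ℤ) ∣ M 1 0
    simp only [M, Matrix.of_apply, Matrix.cons_val', Matrix.cons_val_zero, Matrix.cons_val_one,
      Matrix.cons_val_fin_one]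
    exact Dvd.dvd.mul_left d10 _
  refine ⟨⟨⟨M, hM⟩, hmem⟩, ?_⟩
  apply Subtype.ext
  show conjDeltaMatrix q (⟨M, hM⟩ : SL(2, ℤ)) = (g : Matrix (Fin 2) (Fin 2) ℤ)
  ext i j
  fin_cases i <;> fin_cases j
  · simp [conjDeltaMatrix, M]
  · simp [conjDeltaMatrix, M, hb]
  · simp [conjDeltaMatrix, M, Int.mul_ediv_cancel_left _ hq']
  · simp [conjDeltaMatrix, M]

theorem finiteIndex_gamma0Delta {N q : ℕ} (hN : N ≠ 0) (hq : q ≠ 0) :
    (gamma0Delta N q).FiniteIndex := by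
  have : NeZero (N * q) := ⟨Nat.mul_ne_zero hN hq⟩
  exact Subgroup.finiteIndex_of_le (gamma_le_gamma0Delta N q hq)

end Fermat.Agent.S41.H221
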