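import Mathlib
import Fermat.Agent.S41.H221.PDAsm1
import Fermat.Agent.S41.H221.PDMisc

/-!
# S41, block PD — assembly, part 2 (helper221): β-formula, `c_δ`-isometry, PD and LIFT

From the leaves of `Spec/PD.lean` (taken as hypotheses):
* `maninPairingBeta`      : `Spec.ManinPairingBetaStatement`      (A4);
* `maninPairingConjDelta` : `Spec.ManinPairingConjDeltaStatement` (A5);
* `pd_of_asm`             : `Spec.PDStatement` from A2, A3, A5, TR-4;
* `lift_of_leaves`        : `Spec.LiftStatement`.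
-/

set_option autoImplicit false

namespace Fermat.Agent.S41.H221

open CongruenceSubgroup Matrix.SpecialLinearGroup ModularCurve.Period ModularGroup
open Fermat.Agent.S41.Spec
open scoped MatrixGroups

universe u

/-! ## A4 : the β-formula -/

section Heis

variable {Γ : Subgroup SL(2, ℤ)} {R : Type*} [CommRing R]

theorem isHeisLift_map_one {φ ψ : Additive Γ →+ R} {ζ : Γ → R} (h : IsHeisLift Γ φ ψ ζ) :
    ζ 1 = 0 := h.2 1 IsOfFinOrder.one

theorem isHeisLift_conj {φ ψ : Additive Γ →+ R} {ζ : Γ → R} (h : IsHeisLift Γ φ ψ ζ)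
    (g γ : Γ) (h1 : φ (Additive.ofMul γ) = 0) (h2 : ψ (Additive.ofMul γ) = 0) :
    ζ (g * γ * g⁻¹) = ζ γ := by
  have e1 := h.1 (g * γ) g⁻¹
  have e2 := h.1 g γ
  have e3 := h.1 g g⁻¹
  rw [mul_inv_cancel, isHeisLift_map_one h] at e3
  have e4 : φ (Additive.ofMul (g * γ)) = φ (Additive.ofMul g) + φ (Additive.ofMul γ) :=
    φ.map_add _ _
  rw [e1, e2, e4, h1, h2]
  linear_combination -e3

/-- The difference of two Heisenberg lifts is a torsion-trivial homomorphism. -/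
def heisDiff {φ ψ : Additive Γ →+ R} {ζ ζ₀ : Γ → R} (h : IsHeisLift Γ φ ψ ζ)
    (h₀ : IsHeisLift Γ φ ψ ζ₀) : Additive Γ →+ R where
  toFun g := ζ (Additive.toMul g) - ζ₀ (Additive.toMul g)
  map_zero' := by
    show ζ 1 - ζ₀ 1 = 0
    rw [isHeisLift_map_one h, isHeisLift_map_one h₀, sub_zero]
  map_add' g g' := by
    show ζ (Additive.toMul g * Additive.toMul g') - ζ₀ (Additive.toMul g * Additive.toMul g') = _
    rw [h.1, h₀.1]
    ring

theorem heisDiff_apply {φ ψ : Additive Γ →+ R} {ζ ζ₀ : Γ → R} (h : IsHeisLift Γ φ ψ ζ)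
    (h₀ : IsHeisLift Γ φ ψ ζ₀) (γ : Γ) : heisDiff h h₀ (Additive.ofMul γ) = ζ γ - ζ₀ γ := rfl

end Heis

theorem maninPairingBeta (hA1 : ManinPairingEqStatement.{u}) (hD1 : ManinRepExistsStatement.{u})
    (hD4 : ManinRepParabolicStatement.{u}) (hHeis : HeisLiftStatement.{u})
    (hZero : CuspSumZeroStatement.{u}) (hEx : TOrbitSystemExistsStatement)
    (hTC : TOrbitCuspStatement) (hInd : CuspSumIndepStatement.{u}) :
    ManinPairingBetaStatement.{u} := by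
  intro Γ _ hneg F _ φ ψ ζ hφ hψ hζ ι _ γ hγ
  obtain ⟨m, hm⟩ := hD1 Γ hneg F φ hφ.2
  obtain ⟨e, he⟩ := (hD4 Γ hneg F φ m hm).1 hφ.1
  obtain ⟨m', hm'⟩ := hD1 Γ hneg F ψ hψ.2
  obtain ⟨e', he'⟩ := (hD4 Γ hneg F ψ m' hm').1 hψ.1
  obtain ⟨ζ₀, hζ₀, hβ⟩ := hHeis Γ hneg F φ ψ m m' e e' hm hm' he he'
  obtain ⟨ι₀, inst₀, γ₀, h₀, w₀, hsys⟩ := hEx Γ
  have hcusp₀ := hTC Γ hneg ι₀ γ₀ h₀ w₀ hsys
  have hclass : ∀ g γ : Γ, IsPosParabolic (γ : SL(2, ℤ)) → ζ (g * γ * g⁻¹) = ζ γ := by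
    intro g γ hγ
    have htr : ((γ : SL(2, ℤ)) : Matrix (Fin 2) (Fin 2) ℤ).trace ^ 2 = 4 := by
      rw [hγ.2.1]; norm_num
    exact isHeisLift_conj hζ g γ (hφ.1 γ htr) (hψ.1 γ htr)
  rw [hInd Γ F ζ hclass ι ι₀ γ γ₀ hγ hcusp₀]
  have hχ : ∀ γ : Γ, IsOfFinOrder γ → heisDiff hζ hζ₀ (Additive.ofMul γ) = 0 := by
    intro γ hγ
    rw [heisDiff_apply, hζ.2 γ hγ, hζ₀.2 γ hγ, sub_zero]
  have h1 := hZero Γ hneg F (heisDiff hζ hζ₀) hχ ι₀ γ₀ h₀ w₀ hsys
  have h2 := hβ ι₀ γ₀ h₀ w₀ hsys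
  simp only [heisDiff_apply, Finset.sum_sub_distrib] at h1
  rw [sub_eq_zero.mp h1, h2, hA1 Γ hneg F φ ψ m m' e' hφ.1 hm hm' he']

/-! ## A5 : `c_δ` is an isometry -/

theorem isCuspidalOn_comp_conjDeltaR {N q : ℕ} {A : Type*} [AddCommGroup A]
    (φ : Additive (gamma0Delta N q) →+ A) (hφ : IsCuspidalOn (gamma0Delta N q) φ) :
    IsCuspidalOn (Gamma0 (N * q)) (φ.comp (MonoidHom.toAdditive (conjDeltaR N q))) := by
  refine ⟨fun γ hγ => ?_, fun γ hγ => ?_⟩
  · refine hφ.1 (conjDeltaR N q γ) ?_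
    rw [trace_conjDeltaR]; exact hγ
  · exact hφ.2 (conjDeltaR N q γ) ((conjDeltaR N q).isOfFinOrder hγ)

theorem isHeisLift_comp_conjDeltaR {N q : ℕ} {R : Type*} [CommRing R]
    (φ ψ : Additive (gamma0Delta N q) →+ R) (ζ : gamma0Delta N q → R)
    (hζ : IsHeisLift (gamma0Delta N q) φ ψ ζ) :
    IsHeisLift (Gamma0 (N * q)) (φ.comp (MonoidHom.toAdditive (conjDeltaR N q)))
      (ψ.comp (MonoidHom.toAdditive (conjDeltaR N q))) (fun γ => ζ (conjDeltaR N q γ)) := by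
  refine ⟨fun γ γ' => ?_, fun γ hγ => ?_⟩
  · show ζ (conjDeltaR N q (γ * γ')) = _
    rw [map_mul, hζ.1]
    rfl
  · exact hζ.2 _ ((conjDeltaR N q).isOfFinOrder hγ)

theorem maninPairingConjDelta (hA4 : ManinPairingBetaStatement.{u})
    (hD1 : ManinRepExistsStatement.{u}) (hD4 : ManinRepParabolicStatement.{u})
    (hHeis : HeisLiftStatement.{u}) (hEx : TOrbitSystemExistsStatement)
    (hTC : TOrbitCuspStatement) (hCD : CuspSystemConjDeltaStatement) :
    ManinPairingConjDeltaStatement.{u} := by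
  intro N q hN hq hqN F _ φ ψ hφ hψ
  have hq0 : q ≠ 0 := hq.ne_zero
  have hFI' : (gamma0Delta N q).FiniteIndex := finiteIndex_gamma0Delta hN hq0
  have hFI : (Gamma0 (N * q)).FiniteIndex := finiteIndex_gamma0 (Nat.mul_ne_zero hN hq0)
  have hneg' := neg_one_mem_gamma0Delta N q
  have hneg := neg_one_mem_gamma0 (N * q)
  -- a Heisenberg lift on `Γ'`
  obtain ⟨m, hm⟩ := hD1 _ hneg' F φ hφ.2
  obtain ⟨e, he⟩ := (hD4 _ hneg' F φ m hm).1 hφ.1
  obtain ⟨m', hm'⟩ := hD1 _ hneg' F ψ hψ.2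
  obtain ⟨e', he'⟩ := (hD4 _ hneg' F ψ m' hm').1 hψ.1
  obtain ⟨ζ, hζ, -⟩ := hHeis _ hneg' F φ ψ m m' e e' hm hm' he he'
  -- a cusp system on `Γ₀(N q)` and its image
  obtain ⟨ι, inst, γ, h, w, hsys⟩ := hEx (Gamma0 (N * q))
  have hcusp := hTC _ hneg ι γ h w hsys
  have hcusp' := hCD N q hN hq0 ι γ hcusp
  have h1 := hA4 _ hneg F _ _ _ (isCuspidalOn_comp_conjDeltaR φ hφ)
    (isCuspidalOn_comp_conjDeltaR ψ hψ) (isHeisLift_comp_conjDeltaR φ ψ ζ hζ) ι γ hcusp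
  have h2 := hA4 _ hneg' F φ ψ ζ hφ hψ hζ ι (fun i => conjDeltaR N q (γ i)) hcusp'
  exact neg_injective (h1.symm.trans h2)

/-! ## PD -/

theorem isCuspidalOn_comp_symm {N q : ℕ} (hq : q ≠ 0) {A : Type*} [AddCommGroup A]
    (y : Additive (Gamma0 (N * q)) →+ A) (hy : IsCuspidalOn (Gamma0 (N * q)) y) :
    IsCuspidalOn (gamma0Delta N q)
      (y.comp (MonoidHom.toAdditive (conjDeltaEquiv N q hq).symm.toMonoidHom)) := by
  refine ⟨fun γ hγ => ?_, fun γ hγ => ?_⟩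
  · refine hy.1 ((conjDeltaEquiv N q hq).symm γ) ?_
    have := trace_conjDeltaR N q ((conjDeltaEquiv N q hq).symm γ)
    rw [← conjDeltaEquiv_apply N q hq, MulEquiv.apply_symm_apply] at this
    rw [← this]; exact hγ
  · exact hy.2 _ ((conjDeltaEquiv N q hq).symm.toMonoidHom.isOfFinOrder hγ)

theorem pd_of_asm (hA2 : ManinPairingPDStatement.{u}) (hA3 : ManinPairingResCoresStatement.{u})
    (hA5 : ManinPairingConjDeltaStatement.{u}) (hTE : TransferAlongEquivStatement.{u}) :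
    PDStatement.{u} := by
  intro F _
  refine ⟨fun n => maninPairing (Gamma0 n), ?_, ?_, ?_, ?_, ?_⟩
  · intro n hn x x' y hx hx' hy
    have := finiteIndex_gamma0 hn
    exact (hA2 (Gamma0 n) (neg_one_mem_gamma0 n) F).1 x x' y hx hx' hy
  · intro n hn c x y hx hy
    have := finiteIndex_gamma0 hn
    exact (hA2 (Gamma0 n) (neg_one_mem_gamma0 n) F).2.1 c x y hx hy
  · intro n hn x y hx hy
    have := finiteIndex_gamma0 hn
    exact (hA2 (Gamma0 n) (neg_one_mem_gamma0 n) F).2.2.1 x y hx hy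
  · intro n hn x hx hxy
    have := finiteIndex_gamma0 hn
    exact (hA2 (Gamma0 n) (neg_one_mem_gamma0 n) F).2.2.2 x hx hxy
  · intro N q hN hq hqN x y hx hy
    have hq0 : q ≠ 0 := hq.ne_zero
    have hFI : (Gamma0 N).FiniteIndex := finiteIndex_gamma0 hN
    have hFI' : (Gamma0 (N * q)).FiniteIndex := finiteIndex_gamma0 (Nat.mul_ne_zero hN hq0)
    have hFI'' : (gamma0Delta N q).FiniteIndex := finiteIndex_gamma0Delta hN hq0
    beta_reduce
    constructor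
    · exact hA3 (Gamma0 (N * q)) (Gamma0 N) (gamma0_mul_le N q) (neg_one_mem_gamma0 _) F x y hx hy
    · -- `r₂ x = (res x) ∘ c_δ`, `y = (y ∘ c_δ⁻¹) ∘ c_δ`, `t₂ y = cores (y ∘ c_δ⁻¹)`
      set e := conjDeltaEquiv N q hq0 with he
      have hr₂ : r₂ N q x = (x.comp (MonoidHom.toAdditive
          (Subgroup.inclusion (gamma0Delta_le N q)))).comp
            (MonoidHom.toAdditive (conjDeltaR N q)) := by
        unfold r₂
        rw [← inclusion_comp_conjDeltaR]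
        rfl
      have hy' : y = (y.comp (MonoidHom.toAdditive e.symm.toMonoidHom)).comp
          (MonoidHom.toAdditive (conjDeltaR N q)) := by
        ext γ
        show y (Additive.ofMul γ) = y (Additive.ofMul (e.symm (conjDeltaR N q γ)))
        rw [← conjDeltaEquiv_apply N q hq0, ← he, MulEquiv.symm_apply_apply]
      have ht₂ : t₂ N q y = transferAlong (Subgroup.inclusion (gamma0Delta_le N q))
          (y.comp (MonoidHom.toAdditive e.symm.toMonoidHom)) := by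
        unfold t₂
        rw [← hTE (Gamma0 (N * q)) (gamma0Delta N q) (Gamma0 N) e
          (Subgroup.inclusion (gamma0Delta_le N q)) F y]
        rfl
      rw [hr₂, ht₂]
      conv_lhs => rw [hy']
      rw [hA5 N q hN hq hqN F _ _ (isCuspidalOn_res (gamma0Delta_le N q) x hx)
        (isCuspidalOn_comp_symm hq0 y hy)]
      exact hA3 (gamma0Delta N q) (Gamma0 N) (gamma0Delta_le N q) (neg_one_mem_gamma0Delta N q) F
        x _ hx (isCuspidalOn_comp_symm hq0 y hy)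

/-! ## LIFT -/

theorem lift_of_leaves (hD1 : ManinRepExistsStatement.{0}) (hD2' : ManinRepInvariantStatement.{0})
    (hLin : ManinRepLinearStatement.{0}) (hD3 : ManinRepRealizeStatement.{0})
    (hD3' : ManinRepTorsionStatement.{0}) (hD4 : ManinRepParabolicStatement.{0})
    (hLift : ParDataLiftStatement) : LiftStatement := by
  intro n p hn xbar hx
  have hFI : (Gamma0 n).FiniteIndex := finiteIndex_gamma0 hn
  have hneg := neg_one_mem_gamma0 n
  obtain ⟨mbar, hmbar⟩ := hD1 (Gamma0 n) hneg (ZMod p) xbar hx.2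
  obtain ⟨ebar, hebar⟩ := (hD4 (Gamma0 n) hneg (ZMod p) xbar mbar hmbar).1 hx.1
  obtain ⟨m, e, hme, hm, -⟩ := hLift (Gamma0 n) p mbar ebar hebar
  obtain ⟨φ, hφ⟩ := hD3 (Gamma0 n) hneg ℤ m
  refine ⟨φ, ⟨(hD4 (Gamma0 n) hneg ℤ φ m hφ).2 ⟨e, hme⟩, hD3' (Gamma0 n) hneg ℤ φ m hφ⟩, ?_⟩
  have h1 := (hLin (Gamma0 n) ℤ (ZMod p) (Int.castAddHom (ZMod p)) φ φ m m hφ hφ).2.2
  have h2 : (fun x => Int.castAddHom (ZMod p) (m x)) = mbar := by
    funext x
    exact hm x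
  rw [h2] at h1
  have h3 := (hLin (Gamma0 n) (ZMod p) (ZMod p) (AddMonoidHom.id _) _ _ _ _ h1 hmbar).2.1
  rw [sub_self] at h3
  have h4 : IsInvariantSum (Gamma0 n) (0 : SL(2, ℤ) ⧸ Gamma0 n → ZMod p) :=
    ⟨0, 0, fun _ => rfl, fun _ => rfl, (add_zero 0).symm⟩
  exact sub_eq_zero.mp (hD2' (Gamma0 n) hneg (ZMod p) _ 0 h3 h4)

/-! ## Everything from the leaves -/

/-- **Block PD from the leaves of `Spec/PD.lean`.** -/
theorem pd_of_leaves
    (hLA1 : ManinPerpStatement.{u}) (hLA2 : ManinSkewStatement.{u})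
    (hLA3 : ManinParDataOfStatement.{u})
    (hD1 : ManinRepExistsStatement.{u}) (hD2 : ManinRepZeroStatement.{u})
    (hD2' : ManinRepInvariantStatement.{u}) (hLin : ManinRepLinearStatement.{u})
    (hD3 : ManinRepRealizeStatement.{u}) (hD3' : ManinRepTorsionStatement.{u})
    (hD4 : ManinRepParabolicStatement.{u})
    (hTR1 : ManinRepResStatement.{u}) (hTR2 : ManinRepCoresStatement.{u})
    (hTR3 : ManinFormAdjointStatement.{u}) (hTR4 : TransferAlongEquivStatement.{u})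
    (hHeis : HeisLiftStatement.{u}) (hZero : CuspSumZeroStatement.{u})
    (hC1 : TOrbitSystemExistsStatement) (hC2 : TOrbitCuspStatement)
    (hC3 : CuspSumIndepStatement.{u}) (hC4 : CuspSystemConjDeltaStatement) :
    PDStatement.{u} := by
  have hA1 := maninPairingEq hD2 hLin hD4 hLA2
  have hA2 := maninPairingPD hA1 hD1 hD2' hLin hD3 hD3' hD4 hLA1 hLA2 hLA3
  have hA3 := maninPairingResCores hA1 hD1 hD4 hTR1 hTR2 hTR3
  have hA4 := maninPairingBeta hA1 hD1 hD4 hHeis hZero hC1 hC2 hC3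
  have hA5 := maninPairingConjDelta hA4 hD1 hD4 hHeis hC1 hC2 hC4
  exact pd_of_asm hA2 hA3 hA5 hTR4

/-- **Block PD with Hecke operators from the leaves.** -/
theorem pdHecke_of_leaves (hPD : PDStatement.{u}) (hH : PDHeckeOfPDStatement.{u})
    (hRC : RestrictCuspStatement.{u}) (hTRH : TransferRestrictHeckeStatement.{u}) :
    PDHeckeStatement.{u} := by
  intro F _
  obtain ⟨B, hB⟩ := hPD F
  exact ⟨B, hB, hH hRC hTRH F B hB⟩

end Fermat.Agent.S41.H221
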